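import Mathlib
import Fermat.Agent.S18.DED6052.DiscNormal
import Fermat.Agent.S18.DISC7529.Tame
import Fermat.Agent.S18.SPEC9202.Points

/-!
# S18 / DISC (helper8149): the specialisation theorem (C3), abstract core

Generic (Mathlib-only plus three vendored generic files of helper6052, helper7529, helper9202).

`A` a valuation subring of an algebraically closed field `L`, `𝕜` its residue field.
Base rings `𝔻 → W` (generic PID) and `𝔻 → R` (special base); an order `𝒪` finite over `𝔻` with an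
injective map `gen : 𝒪 → C'` (`C'` integrally closed, free over `W`, every element of `C'` is a
unit multiple of an element of `gen 𝒪`) and a surjective reduction `red : 𝒪 → B` (`B` free over
`R`, contained in a free `R`-algebra `C` of the same rank with nonzero discriminant).
If all points `a` of the class `P` but one are unbranched (the fibre of `C'` over `sL a` is
reduced), then `B → C` is an isomorphism at the point `sb` of the special base:
`¬ sb ∣ det (B → C)`  (`core`).
-/

set_option autoImplicit false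
set_option linter.unusedSectionVars false
set_option linter.style.haveILetI false

namespace Fermat.Agent.S18.DISC8149

open Module
open scoped TensorProduct

/-! ### Generic lemmas -/

/-- Nakayama, ideal form. -/
theorem exists_nakayama {R : Type*} [CommRing R] (I : Ideal R)
    {O : Type*} [AddCommGroup O] [Module R O] [Module.Finite R O] {ι : Type*} (b : ι → O)
    (hsup : ∀ y : O, ∃ n ∈ Submodule.span R (Set.range b),
      y - n ∈ I • (⊤ : Submodule R O)) :
    ∃ r : R, r - 1 ∈ I ∧ ∀ y : O, r • y ∈ Submodule.span R (Set.range b) := by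
  set N := Submodule.span R (Set.range b) with hN
  have hfg : (⊤ : Submodule R (O ⧸ N)).FG := Module.finite_def.mp inferInstance
  have hle : (⊤ : Submodule R (O ⧸ N)) ≤ I • (⊤ : Submodule R (O ⧸ N)) := by
    intro x _
    obtain ⟨y, rfl⟩ := Submodule.Quotient.mk_surjective N x
    obtain ⟨n, hn, hw⟩ := hsup y
    have h1 : (Submodule.Quotient.mk y : O ⧸ N) = N.mkQ (y - n) := by
      rw [Submodule.mkQ_apply, Submodule.Quotient.mk_sub, (Submodule.Quotient.mk_eq_zero N).mpr hn,
        sub_zero]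
    rw [h1]
    have h2 : N.mkQ (y - n) ∈ (I • (⊤ : Submodule R O)).map N.mkQ :=
      Submodule.mem_map_of_mem hw
    rw [Submodule.map_smul''] at h2
    exact Submodule.smul_mono le_rfl le_top h2
  obtain ⟨r, hr1, hr⟩ :=
    Submodule.exists_sub_one_mem_and_smul_eq_zero_of_fg_of_le_smul _ _ hfg hle
  refine ⟨r, hr1, fun y => ?_⟩
  have := hr (Submodule.Quotient.mk y) Submodule.mem_top
  rwa [← Submodule.Quotient.mk_smul, Submodule.Quotient.mk_eq_zero] at this

/-- Trace from a matrix of multiplication in a basis. -/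
theorem trace_eq_of_mul_eq {R S : Type*} [CommRing R] [CommRing S] [Algebra R S]
    {ι : Type*} [Fintype ι] [DecidableEq ι] (B : Basis ι R S) (x : S) (m : Matrix ι ι R)
    (h : ∀ j, x * B j = ∑ i, m i j • B i) : Algebra.trace R S x = Matrix.trace m := by
  rw [Algebra.trace_eq_matrix_trace B]
  congr 1
  ext i j
  rw [Algebra.leftMulMatrix_eq_repr_mul, h j, B.repr_sum_self]

/-- Traces of "almost conjugate" matrices over a domain. -/
theorem trace_eq_of_conj {W : Type*} [CommRing W] [IsDomain W] {ι : Type*} [Fintype ι]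
    [DecidableEq ι] (M T Q : Matrix ι ι W) (r : W) (h : r • (M * T) = T * Q)
    (hT : T.det ≠ 0) : r * M.trace = Q.trace := by
  have h1 : (r * T.det) • M = T * Q * T.adjugate := by
    rw [← h, Matrix.smul_mul, Matrix.mul_assoc, Matrix.mul_adjugate, Matrix.mul_smul,
      Matrix.mul_one, smul_smul]
  have h2 := congrArg Matrix.trace h1
  rw [Matrix.trace_smul, Matrix.trace_mul_comm, ← Matrix.mul_assoc, Matrix.adjugate_mul,
    Matrix.smul_mul, Matrix.one_mul, Matrix.trace_smul, smul_eq_mul, smul_eq_mul] at h2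
  apply mul_left_cancel₀ hT
  linear_combination h2

/-- If the fibre over `s` is reduced, then `s` does not divide the discriminant (tame case). -/
theorem not_dvd_discr_of_reduced {W C : Type*} [CommRing W] [IsDomain W] [IsPrincipalIdealRing W]
    [CommRing C] [IsDomain C] [IsIntegrallyClosed C] [Algebra W C]
    {ι : Type*} [Fintype ι] [DecidableEq ι] (c : Basis ι W C) {s : W} (hs : Irreducible s)
    (hchar : ∀ m : ℕ, m ≠ 0 → ¬ s ∣ (m : W))
    (hred : ∀ z : C, algebraMap W C s ∣ z ^ 2 → algebraMap W C s ∣ z) :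
    ¬ s ∣ Algebra.discr W c := by
  classical
  have hpow : ∀ m : ℕ, ∀ z : C, algebraMap W C s ∣ z ^ m → algebraMap W C s ∣ z := by
    intro m
    induction m using Nat.strong_induction_on with
    | _ m ih =>
      intro z hz
      rcases Nat.lt_or_ge m 2 with hm | hm
      · interval_cases m
        · rw [pow_zero] at hz
          exact hz.trans (one_dvd z)
        · rwa [pow_one] at hz
      · have h2 : algebraMap W C s ∣ (z ^ ((m + 1) / 2)) ^ 2 := by
          rw [← pow_mul]
          have hle : m ≤ (m + 1) / 2 * 2 := by omega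
          exact hz.trans (pow_dvd_pow z hle)
        exact ih ((m + 1) / 2) (by omega) z (hred _ h2)
  let e := Fintype.equivFin ι
  have key := DISC7529.not_pow_dvd_discr_of_charZero c hs hchar (Fintype.card ι)
    (fun j => c (e.symm j)) (by
      intro v hv j
      obtain ⟨m, hm⟩ := hv
      rw [Ideal.mem_span_singleton] at hm
      obtain ⟨w, hw⟩ := hpow m _ hm
      have h1 : c.repr (∑ j, v j • c (e.symm j)) (e.symm j) = v j := by
        rw [map_sum, Finsupp.coe_finsetSum, Finset.sum_apply, Finset.sum_eq_single j]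
        · rw [map_smul, Finsupp.smul_apply, c.repr_self, Finsupp.single_eq_same, smul_eq_mul,
            mul_one]
        · intro j' _ hj'
          rw [map_smul, Finsupp.smul_apply, c.repr_self, Finsupp.single_eq_of_ne, smul_zero]
          intro h
          exact hj' (e.symm.injective h).symm
        · intro h; exact absurd (Finset.mem_univ j) h
      rw [hw, ← Algebra.smul_def, map_smul, Finsupp.smul_apply, smul_eq_mul] at h1
      exact ⟨_, h1.symm⟩)
  rw [Nat.sub_self, zero_add, pow_one] at key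
  exact key


/-! ### The abstract setting -/

section Core

variable {L : Type*} [Field L] (A : ValuationSubring L)
variable {𝔻 : Type*} [CommRing 𝔻] [Algebra A 𝔻]
variable {W : Type*} [CommRing W] [IsDomain W] [IsPrincipalIdealRing W]
variable {R : Type*} [CommRing R] [IsDomain R] [Algebra R (IsLocalRing.ResidueField A)]
variable {𝒪 : Type*} [CommRing 𝒪] [Algebra 𝔻 𝒪] [Module.Finite 𝔻 𝒪]
variable {C' : Type*} [CommRing C'] [IsDomain C'] [IsIntegrallyClosed C'] [Algebra W C']
variable {B : Type*} [CommRing B] [Algebra R B]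
variable {C : Type*} [CommRing C] [Algebra R C]
variable {ι : Type*} [Fintype ι] [DecidableEq ι]

/-- The hypotheses of the abstract specialisation theorem. -/
structure IsSpec (ιL : 𝔻 →+* W) (ιk : 𝔻 →+* R) (gen : 𝒪 →+* C') (red : 𝒪 →+* B)
    (sL : A → W) (evA : A → (𝔻 →ₐ[A] A)) (sb : R) (P : Set A) : Prop where
  ιL_inj : Function.Injective ιL
  ιk_surj : Function.Surjective ιk
  gen_inj : Function.Injective gen
  gen_smul : ∀ (d : 𝔻) (y : 𝒪), gen (d • y) = ιL d • gen y
  red_surj : Function.Surjective red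
  red_smul : ∀ (d : 𝔻) (y : 𝒪), red (d • y) = ιk d • red y
  ker_red : ∀ y : 𝒪, red y = 0 → y ∈ RingHom.ker ιk • (⊤ : Submodule 𝔻 𝒪)
  unit : ∀ u : A, u ≠ 0 → IsUnit (ιL (algebraMap A 𝔻 u))
  hint : ∀ z : C', ∃ u : A, u ≠ 0 ∧ ∃ y : 𝒪, ιL (algebraMap A 𝔻 u) • z = gen y
  evk_surj : Function.Surjective (algebraMap R (IsLocalRing.ResidueField A))
  evk_ker : ∀ ρ : R, algebraMap R (IsLocalRing.ResidueField A) ρ = 0 → sb ∣ ρ
  irr : ∀ a ∈ P, Irreducible (sL a)
  char0 : ∀ a ∈ P, ∀ m : ℕ, m ≠ 0 → ¬ sL a ∣ (m : W)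
  ev_dvd : ∀ a ∈ P, ∀ d : 𝔻, sL a ∣ ιL d - ιL (algebraMap A 𝔻 (evA a d))
  ev_res : ∀ a ∈ P, ∀ d : 𝔻,
    algebraMap R (IsLocalRing.ResidueField A) (ιk d) = IsLocalRing.residue A (evA a d)
  ev_frac : ∀ a ∈ P, ∀ w : W, ∃ u₁ u₂ : A, u₂ ≠ 0 ∧
    sL a ∣ ιL (algebraMap A 𝔻 u₂) * w - ιL (algebraMap A 𝔻 u₁)
  ev_gen : ∀ a ∈ P, ∃ σ : 𝔻, ιL σ = sL a ∧ evA a σ = 0
  mult : ∀ D : 𝔻, ιk D ≠ 0 → ∀ j : ℕ, sb ^ j ∣ ιk D →
    ∃ m : Multiset A, j ≤ Multiset.card m ∧ (∀ a ∈ m, a ∈ P) ∧ (m.map sL).prod ∣ ιL D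

variable {A}
variable {ιL : 𝔻 →+* W} {ιk : 𝔻 →+* R} {gen : 𝒪 →+* C'} {red : 𝒪 →+* B}
  {sL : A → W} {evA : A → (𝔻 →ₐ[A] A)} {sb : R} {P : Set A}

omit [IsDomain W] [IsPrincipalIdealRing W] [IsDomain R] [IsDomain C'] [IsIntegrallyClosed C']
  [DecidableEq ι] in
/-- Step 1: lifted basis and Nakayama multiplier. -/
theorem IsSpec.exists_lift (h : IsSpec A ιL ιk gen red sL evA sb P) (bb : Basis ι R B) :
    ∃ (b : ι → 𝒪) (r : 𝔻), (∀ i, red (b i) = bb i) ∧ ιk r = 1 ∧
      ∀ y : 𝒪, ∃ p : ι → 𝔻, r • y = ∑ i, p i • b i := by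
  classical
  choose b hb using fun i => h.red_surj (bb i)
  have hsup : ∀ y : 𝒪, ∃ n ∈ Submodule.span 𝔻 (Set.range b),
      y - n ∈ RingHom.ker ιk • (⊤ : Submodule 𝔻 𝒪) := by
    intro y
    choose d hd using fun i => h.ιk_surj (bb.repr (red y) i)
    refine ⟨∑ i, d i • b i, Submodule.sum_mem _ fun i _ =>
      Submodule.smul_mem _ _ (Submodule.subset_span ⟨i, rfl⟩), h.ker_red _ ?_⟩
    rw [map_sub, map_sum]
    have : ∀ i, red (d i • b i) = bb.repr (red y) i • bb i := by
      intro i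
      rw [h.red_smul, hd, hb]
    simp_rw [this]
    rw [bb.sum_repr, sub_self]
  obtain ⟨r, hr1, hr⟩ := exists_nakayama (RingHom.ker ιk) b hsup
  refine ⟨b, r, hb, ?_, fun y => ?_⟩
  · rw [RingHom.mem_ker, map_sub, map_one, sub_eq_zero] at hr1
    exact hr1
  · obtain ⟨p, hp⟩ := (Submodule.mem_span_range_iff_exists_fun 𝔻).mp (hr y)
    exact ⟨p, hp.symm⟩


/-- The matrix of `gen ∘ b` in the basis `c'`. -/
noncomputable def tMat (gen : 𝒪 →+* C') (c' : Basis ι W C') (b : ι → 𝒪) : Matrix ι ι W :=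
  Matrix.of fun i l => c'.repr (gen (b l)) i

omit [IsDomain W] [IsPrincipalIdealRing W] [Algebra 𝔻 𝒪] [Module.Finite 𝔻 𝒪] [IsDomain C']
  [IsIntegrallyClosed C'] [DecidableEq ι] in
theorem gen_eq_sum_tMat (gen : 𝒪 →+* C') (c' : Basis ι W C') (b : ι → 𝒪) (l : ι) :
    gen (b l) = ∑ i, tMat gen c' b i l • c' i :=
  (c'.sum_repr (gen (b l))).symm

omit [IsPrincipalIdealRing W] [IsDomain C'] [IsIntegrallyClosed C'] in
/-- Step 2: the transition matrix has nonzero determinant, prime to every prime not dividing `r`. -/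
theorem IsSpec.det_tMat (h : IsSpec A ιL ιk gen red sL evA sb P) (c' : Basis ι W C')
    (b : ι → 𝒪) (r : 𝔻) (hr1 : ιk r = 1)
    (hr : ∀ y : 𝒪, ∃ p : ι → 𝔻, r • y = ∑ i, p i • b i) :
    (tMat gen c' b).det ≠ 0 ∧ ∀ s : W, Prime s → ¬ s ∣ ιL r → ¬ s ∣ (tMat gen c' b).det := by
  classical
  choose u hu y hy using fun l => h.hint (c' l)
  choose p hp using fun l => hr (y l)
  let Pm : Matrix ι ι W := Matrix.of fun i l => ιL (p l i)
  have hTP : tMat gen c' b * Pm =
      Matrix.diagonal (fun l => ιL r * ιL (algebraMap A 𝔻 (u l))) := by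
    ext m l
    have h1 : ιL r • (ιL (algebraMap A 𝔻 (u l)) • c' l) = ∑ i, ιL (p l i) • gen (b i) := by
      rw [hy l, ← h.gen_smul, hp l, map_sum]
      exact Finset.sum_congr rfl fun i _ => h.gen_smul _ _
    have h2 := congrArg (fun z => c'.repr z m) h1
    simp only [map_smul, map_sum, Finsupp.smul_apply, Finsupp.coe_finsetSum, Finset.sum_apply,
      smul_eq_mul, c'.repr_self] at h2
    rw [Matrix.mul_apply, Matrix.diagonal_apply]
    have h3 : ∑ j, tMat gen c' b m j * Pm j l = ∑ i, ιL (p l i) * c'.repr (gen (b i)) m :=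
      Finset.sum_congr rfl fun i _ => by simp only [tMat, Pm, Matrix.of_apply]; ring
    rw [h3, ← h2]
    by_cases hlm : m = l
    · subst hlm
      simp
    · rw [if_neg hlm, Finsupp.single_eq_of_ne hlm]
      simp
  have hr0 : ιL r ≠ 0 := by
    intro h0
    have : r = 0 := h.ιL_inj (by rw [h0, map_zero])
    rw [this, map_zero] at hr1
    exact zero_ne_one hr1
  have hdet : (tMat gen c' b).det * Pm.det = ∏ l, (ιL r * ιL (algebraMap A 𝔻 (u l))) := by
    rw [← Matrix.det_mul, hTP, Matrix.det_diagonal]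
  refine ⟨?_, fun s hs hsr hsT => ?_⟩
  · intro h0
    rw [h0, zero_mul] at hdet
    have := Finset.prod_ne_zero_iff.mpr fun l (_ : l ∈ Finset.univ) =>
      mul_ne_zero hr0 (h.unit (u l) (hu l)).ne_zero
    exact this hdet.symm
  · have h1 : s ∣ ∏ l, (ιL r * ιL (algebraMap A 𝔻 (u l))) := by
      rw [← hdet]
      exact Dvd.dvd.mul_right hsT _
    obtain ⟨l, _, hl⟩ := (Prime.dvd_finsetProd_iff hs _).mp h1
    rcases hs.dvd_or_dvd hl with h2 | h2
    · exact hsr h2
    · exact hs.not_isUnit (isUnit_of_dvd_unit h2 (h.unit (u l) (hu l)))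

omit [IsPrincipalIdealRing W] [IsDomain R] [IsDomain C'] [IsIntegrallyClosed C'] in
/-- Step 3: traces of elements of `𝒪` lift to `𝔻` up to the factor `r`. -/
theorem IsSpec.exists_trace (h : IsSpec A ιL ιk gen red sL evA sb P) (bb : Basis ι R B)
    (c' : Basis ι W C') (b : ι → 𝒪) (r : 𝔻) (hb : ∀ i, red (b i) = bb i) (hr1 : ιk r = 1)
    (hr : ∀ y : 𝒪, ∃ p : ι → 𝔻, r • y = ∑ i, p i • b i)
    (hT : (tMat gen c' b).det ≠ 0) (y : 𝒪) :
    ∃ t : 𝔻, ιk t = Algebra.trace R B (red y) ∧
      ιL t = ιL r * Algebra.trace W C' (gen y) := by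
  classical
  choose q hq using fun l => hr (y * b l)
  let Q : Matrix ι ι 𝔻 := Matrix.of fun m l => q l m
  refine ⟨Q.trace, ?_, ?_⟩
  · have h1 : Algebra.trace R B (red y) = (Q.map ιk).trace := by
      refine trace_eq_of_mul_eq bb (red y) (Q.map ιk) fun l => ?_
      have h2 : red (r • (y * b l)) = red y * bb l := by
        rw [h.red_smul, hr1, one_smul, map_mul, hb]
      rw [← h2, hq l, map_sum]
      exact Finset.sum_congr rfl fun m _ => by rw [h.red_smul, hb]; rfl
    rw [h1]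
    simp [Matrix.trace, Matrix.diag]
  · have hconj : ιL r • (Algebra.leftMulMatrix c' (gen y) * tMat gen c' b) =
        tMat gen c' b * Q.map ιL := by
      ext i l
      have h3 : gen (r • (y * b l)) = ∑ m, ιL (q l m) • gen (b m) := by
        rw [hq l, map_sum]
        exact Finset.sum_congr rfl fun m _ => h.gen_smul _ _
      rw [h.gen_smul, map_mul] at h3
      have h4 := congrArg (fun z => c'.repr z i) h3
      simp only [map_smul, map_sum, Finsupp.smul_apply, Finsupp.coe_finsetSum, Finset.sum_apply,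
        smul_eq_mul] at h4
      have h5 : (Algebra.leftMulMatrix c' (gen y) * tMat gen c' b) i l =
          c'.repr (gen y * gen (b l)) i := by
        rw [← congrFun (Algebra.leftMulMatrix_mulVec_repr c' (gen y) (gen (b l))) i]
        rfl
      rw [Matrix.smul_apply, h5, smul_eq_mul, h4, Matrix.mul_apply]
      exact Finset.sum_congr rfl fun m _ => by
        simp only [tMat, Q, Matrix.of_apply, Matrix.map_apply]; ring
    have h6 := trace_eq_of_conj _ _ _ _ hconj hT
    rw [Algebra.trace_eq_matrix_trace c', h6]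
    simp [Matrix.trace, Matrix.diag]

omit [IsPrincipalIdealRing W] [IsDomain R] [IsDomain C'] [IsIntegrallyClosed C'] in
/-- Step 4: the discriminant of the lifted basis lives in `𝔻`. -/
theorem IsSpec.exists_discr (h : IsSpec A ιL ιk gen red sL evA sb P) (bb : Basis ι R B)
    (c' : Basis ι W C') (b : ι → 𝒪) (r : 𝔻) (hb : ∀ i, red (b i) = bb i) (hr1 : ιk r = 1)
    (hr : ∀ y : 𝒪, ∃ p : ι → 𝔻, r • y = ∑ i, p i • b i)
    (hT : (tMat gen c' b).det ≠ 0) :
    ∃ D : 𝔻, ιk D = Algebra.discr R bb ∧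
      ιL D = ιL r ^ Fintype.card ι * ((tMat gen c' b).det ^ 2 * Algebra.discr W c') := by
  classical
  choose t ht1 ht2 using fun ij : ι × ι =>
    h.exists_trace bb c' b r hb hr1 hr hT (b ij.1 * b ij.2)
  let Dm : Matrix ι ι 𝔻 := Matrix.of fun i j => t (i, j)
  refine ⟨Dm.det, ?_, ?_⟩
  · rw [RingHom.map_det, Algebra.discr_def]
    congr 1
    ext i j
    simp [Dm, ht1, Algebra.traceMatrix_apply, Algebra.traceForm_apply, hb]
  · rw [RingHom.map_det]
    have hG : ιL.mapMatrix Dm = ιL r • Algebra.traceMatrix W (fun j => gen (b j)) := by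
      ext i j
      simp [Dm, ht2, Algebra.traceMatrix_apply, Algebra.traceForm_apply]
    rw [hG, Matrix.det_smul, ← Algebra.discr_def]
    have hfun : (fun j => gen (b j)) =
        Matrix.vecMul (⇑c') ((tMat gen c' b).map (algebraMap W C')) := by
      funext j
      rw [gen_eq_sum_tMat gen c' b j]
      simp [Matrix.vecMul, dotProduct, Algebra.smul_def, mul_comm]
    rw [hfun, Algebra.discr_of_matrix_vecMul]


omit [IsDomain W] [IsPrincipalIdealRing W] [IsDomain C'] [IsIntegrallyClosed C']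
  [Module.Finite 𝔻 𝒪] in
/-- Step 5a: the Nakayama multiplier is a unit at every point of the class. -/
theorem IsSpec.evA_r_ne_zero (h : IsSpec A ιL ιk gen red sL evA sb P) (r : 𝔻) (hr1 : ιk r = 1)
    (a : A) (ha : a ∈ P) : IsUnit (evA a r) := by
  have h4 := h.ev_res a ha r
  rw [hr1, map_one] at h4
  rw [← IsLocalRing.notMem_maximalIdeal, ← IsLocalRing.residue_eq_zero_iff, ← h4]
  exact one_ne_zero

omit [IsDomain W] [IsPrincipalIdealRing W] [IsDomain C'] [IsIntegrallyClosed C']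
  [Module.Finite 𝔻 𝒪] in
theorem IsSpec.not_dvd_r (h : IsSpec A ιL ιk gen red sL evA sb P) (r : 𝔻) (hr1 : ιk r = 1)
    (a : A) (ha : a ∈ P) : ¬ sL a ∣ ιL r := by
  intro hdvd
  have h1 := h.ev_dvd a ha r
  have h2 : sL a ∣ ιL (algebraMap A 𝔻 (evA a r)) := by
    have := dvd_sub hdvd h1
    rwa [sub_sub_cancel] at this
  exact (h.irr a ha).not_isUnit
    (isUnit_of_dvd_unit h2 (h.unit _ (h.evA_r_ne_zero r hr1 a ha).ne_zero))


omit [IsIntegrallyClosed C'] in
/-- Step 6a: the points of the special fibre of `B` lift to `A`-valued points of `𝒪` over `a₀`. -/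
theorem IsSpec.exists_points [IsAlgClosed L] [IsAlgClosed (IsLocalRing.ResidueField A)]
    (h : IsSpec A ιL ιk gen red sL evA sb P) (bb : Basis ι R B) (c' : Basis ι W C')
    (b : ι → 𝒪) (r : 𝔻) (hr1 : ιk r = 1)
    (hr : ∀ y : 𝒪, ∃ p : ι → 𝔻, r • y = ∑ i, p i • b i)
    (a₀ : A) (ha₀ : a₀ ∈ P) :
    ∃ Pt : Fin (finrank (IsLocalRing.ResidueField A)
        ((IsLocalRing.ResidueField A ⊗[R] B) ⧸ nilradical (IsLocalRing.ResidueField A ⊗[R] B))) →
          (𝒪 →+* A),
      Function.Injective Pt ∧ ∀ i d, Pt i (algebraMap 𝔻 𝒪 d) = evA a₀ d := by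
  classical
  have hsirr : Irreducible (sL a₀) := h.irr a₀ ha₀
  have hsprime : Prime (sL a₀) := hsirr.prime
  obtain ⟨hT0, hTp⟩ := h.det_tMat c' b r hr1 hr
  have hsT : ¬ sL a₀ ∣ (tMat gen c' b).det := hTp _ hsprime (h.not_dvd_r r hr1 a₀ ha₀)
  -- `A`-algebra structure on `𝒪`
  letI algA : Algebra A 𝒪 := ((algebraMap 𝔻 𝒪).comp (algebraMap A 𝔻)).toAlgebra
  haveI : IsScalarTower A 𝔻 𝒪 := IsScalarTower.of_algebraMap_eq fun _ => rfl
  have halg : ∀ u : A, algebraMap A 𝒪 u = algebraMap 𝔻 𝒪 (algebraMap A 𝔻 u) := fun _ => rfl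
  have hgenD : ∀ d : 𝔻, gen (algebraMap 𝔻 𝒪 d) = algebraMap W C' (ιL d) := by
    intro d
    have := h.gen_smul d 1
    rwa [Algebra.smul_def, mul_one, map_one, Algebra.smul_def, mul_one] at this
  have hredD : ∀ d : 𝔻, red (algebraMap 𝔻 𝒪 d) = algebraMap R B (ιk d) := by
    intro d
    have := h.red_smul d 1
    rwa [Algebra.smul_def, mul_one, map_one, Algebra.smul_def, mul_one] at this
  -- the ideal of the point `a₀`
  let I : Ideal 𝒪 :=
    Ideal.span (Set.range fun d : 𝔻 => algebraMap 𝔻 𝒪 d - algebraMap A 𝒪 (evA a₀ d))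
  have hIgen : ∀ x ∈ I, algebraMap W C' (sL a₀) ∣ gen x := by
    have hle : I ≤ Ideal.comap gen (Ideal.span {algebraMap W C' (sL a₀)}) := by
      rw [Ideal.span_le]
      rintro _ ⟨d, rfl⟩
      rw [SetLike.mem_coe, Ideal.mem_comap, Ideal.mem_span_singleton, map_sub, halg, hgenD,
        hgenD, ← map_sub]
      exact map_dvd (algebraMap W C') (h.ev_dvd a₀ ha₀ d)
    intro x hx
    exact Ideal.mem_span_singleton.mp (hle hx)
  have hImk : ∀ (d : 𝔻) (y : 𝒪),
      Ideal.Quotient.mk I (d • y) = evA a₀ d • Ideal.Quotient.mk I y := by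
    intro d y
    have h1 : d • y - evA a₀ d • y ∈ I := by
      rw [Algebra.smul_def, Algebra.smul_def, ← sub_mul]
      exact I.mul_mem_right _ (Ideal.subset_span ⟨d, rfl⟩)
    have h2 : Ideal.Quotient.mk I (evA a₀ d • y) = evA a₀ d • Ideal.Quotient.mk I y := rfl
    rw [← h2]
    exact Ideal.Quotient.eq.mpr h1
  -- `𝒪 ⧸ I` is free over `A` on the images of `b`
  have hli : LinearIndependent A (fun i => Ideal.Quotient.mk I (b i)) := by
    rw [Fintype.linearIndependent_iff]
    intro g hg i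
    have hx : ∑ i, g i • b i ∈ I := by
      rw [← Ideal.Quotient.eq_zero_iff_mem, map_sum, ← hg]
      exact Finset.sum_congr rfl fun i _ => rfl
    obtain ⟨w, hw⟩ := hIgen _ hx
    have h1 : gen (∑ i, g i • b i) = ∑ i, ιL (algebraMap A 𝔻 (g i)) • gen (b i) := by
      rw [map_sum]
      refine Finset.sum_congr rfl fun i _ => ?_
      rw [← h.gen_smul, algebraMap_smul]
    rw [h1] at hw
    have h2 : ∀ m, ∑ i, tMat gen c' b m i * ιL (algebraMap A 𝔻 (g i)) =
        sL a₀ * c'.repr w m := by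
      intro m
      have := congrArg (fun z => c'.repr z m) hw
      simp only [map_smul, map_sum, Finsupp.smul_apply, Finsupp.coe_finsetSum, Finset.sum_apply,
        smul_eq_mul] at this
      rw [← Algebra.smul_def, map_smul, Finsupp.smul_apply, smul_eq_mul] at this
      rw [← this]
      exact Finset.sum_congr rfl fun i _ => by simp only [tMat, Matrix.of_apply]; ring
    have h3 : (tMat gen c' b).mulVec (fun i => ιL (algebraMap A 𝔻 (g i))) =
        sL a₀ • (fun m => c'.repr w m) := by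
      funext m
      rw [Matrix.mulVec, dotProduct, Pi.smul_apply, smul_eq_mul]
      exact h2 m
    have h4 := congrArg ((tMat gen c' b).adjugate.mulVec) h3
    rw [Matrix.mulVec_mulVec, Matrix.adjugate_mul, Matrix.smul_mulVec, Matrix.one_mulVec,
      Matrix.mulVec_smul] at h4
    have h5 := congrFun h4 i
    rw [Pi.smul_apply, Pi.smul_apply, smul_eq_mul, smul_eq_mul] at h5
    have h6 : sL a₀ ∣ ιL (algebraMap A 𝔻 (g i)) :=
      (hsprime.dvd_or_dvd ⟨_, h5⟩).resolve_left hsT
    by_contra hgi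
    exact hsirr.not_isUnit (isUnit_of_dvd_unit h6 (h.unit _ hgi))
  have hsp : ⊤ ≤ Submodule.span A (Set.range fun i => Ideal.Quotient.mk I (b i)) := by
    intro y _
    obtain ⟨y₀, rfl⟩ := Ideal.Quotient.mk_surjective y
    obtain ⟨p, hp⟩ := hr y₀
    have h1 := congrArg (Ideal.Quotient.mk I) hp
    rw [hImk, map_sum] at h1
    obtain ⟨ρ, hρ⟩ := h.evA_r_ne_zero r hr1 a₀ ha₀
    have h2 : Ideal.Quotient.mk I y₀ =
        (↑ρ⁻¹ : A) • ∑ i, Ideal.Quotient.mk I (p i • b i) := by
      rw [← h1, ← hρ, smul_smul, Units.inv_mul, one_smul]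
    rw [h2]
    refine Submodule.smul_mem _ _ (Submodule.sum_mem _ fun i _ => ?_)
    rw [hImk]
    exact Submodule.smul_mem _ _ (Submodule.subset_span ⟨i, rfl⟩)
  let β : Basis ι A (𝒪 ⧸ I) := Basis.mk hli hsp
  haveI : Module.Free A (𝒪 ⧸ I) := Module.Free.of_basis β
  haveI : Module.Finite A (𝒪 ⧸ I) := Module.Finite.of_basis β
  -- the points of the special fibre
  haveI hfd : FiniteDimensional (IsLocalRing.ResidueField A) (IsLocalRing.ResidueField A ⊗[R] B) :=
    Module.Finite.of_basis (Algebra.TensorProduct.basis (IsLocalRing.ResidueField A) bb)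
  have hcard : Nat.card (IsLocalRing.ResidueField A ⊗[R] B →ₐ[IsLocalRing.ResidueField A]
      IsLocalRing.ResidueField A) = finrank (IsLocalRing.ResidueField A)
        ((IsLocalRing.ResidueField A ⊗[R] B) ⧸ nilradical (IsLocalRing.ResidueField A ⊗[R] B)) :=
    SPEC9202.finrank_quotient_nilradical_eq_card_algHom.symm
  haveI : Finite (IsLocalRing.ResidueField A ⊗[R] B →ₐ[IsLocalRing.ResidueField A]
      IsLocalRing.ResidueField A) := Finite.algHom _ _ _
  let eψ := (Finite.equivFinOfCardEq hcard).symm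
  let χ : Fin (finrank (IsLocalRing.ResidueField A)
        ((IsLocalRing.ResidueField A ⊗[R] B) ⧸ nilradical (IsLocalRing.ResidueField A ⊗[R] B))) →
      (B →ₐ[R] IsLocalRing.ResidueField A) := fun i =>
    ((eψ i).restrictScalars R).comp Algebra.TensorProduct.includeRight
  have hχinj : Function.Injective χ := by
    intro i i' hii
    apply eψ.injective
    apply Algebra.TensorProduct.ext
    · ext
    · exact hii
  let θ : Fin (finrank (IsLocalRing.ResidueField A)
        ((IsLocalRing.ResidueField A ⊗[R] B) ⧸ nilradical (IsLocalRing.ResidueField A ⊗[R] B))) →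
      (𝒪 →ₐ[A] IsLocalRing.ResidueField A) := fun i =>
    { toRingHom := (χ i : B →+* IsLocalRing.ResidueField A).comp red
      commutes' := fun u => by
        show χ i (red (algebraMap A 𝒪 u)) = algebraMap A (IsLocalRing.ResidueField A) u
        rw [halg, hredD, AlgHom.commutes, h.ev_res a₀ ha₀, AlgHom.commutes]
        rfl }
  have hθ : ∀ i (y : 𝒪), θ i y = χ i (red y) := fun _ _ => rfl
  have hθI : ∀ i, ∀ x ∈ I, θ i x = 0 := by
    intro i
    have hle : I ≤ RingHom.ker (θ i : 𝒪 →+* IsLocalRing.ResidueField A) := by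
      rw [Ideal.span_le]
      rintro _ ⟨d, rfl⟩
      rw [SetLike.mem_coe, RingHom.mem_ker, map_sub, sub_eq_zero]
      show θ i (algebraMap 𝔻 𝒪 d) = θ i (algebraMap A 𝒪 (evA a₀ d))
      rw [AlgHom.commutes, hθ, hredD, AlgHom.commutes, h.ev_res a₀ ha₀]
      rfl
    intro x hx
    exact hle hx
  choose Pt hPI hPres using fun i =>
    SPEC9202.exists_algHom_lift_of_quotient' L I (θ i) (hθI i)
  refine ⟨fun i => (Pt i : 𝒪 →+* A), ?_, fun i d => ?_⟩
  · intro i i' hii
    apply hχinj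
    apply AlgHom.ext
    intro β₀
    obtain ⟨y, rfl⟩ := h.red_surj β₀
    rw [← hθ, ← hθ, ← hPres, ← hPres]
    have : Pt i y = Pt i' y := congrArg (fun f : 𝒪 →+* A => f y) hii
    rw [this]
  · have h1 := hPI i _ (Ideal.subset_span ⟨d, rfl⟩)
    rw [map_sub, sub_eq_zero] at h1
    show Pt i (algebraMap 𝔻 𝒪 d) = evA a₀ d
    rw [h1, AlgHom.commutes]
    rfl


omit [IsIntegrallyClosed C'] in
/-- Step 6b: as many elements of `C'`, independent modulo `rad (s C')`, as there are points in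
the special fibre of `B`. -/
theorem IsSpec.exists_indep [IsAlgClosed L] [IsAlgClosed (IsLocalRing.ResidueField A)]
    (h : IsSpec A ιL ιk gen red sL evA sb P) (bb : Basis ι R B) (c' : Basis ι W C')
    (b : ι → 𝒪) (r : 𝔻) (hr1 : ιk r = 1)
    (hr : ∀ y : 𝒪, ∃ p : ι → 𝔻, r • y = ∑ i, p i • b i)
    (a₀ : A) (ha₀ : a₀ ∈ P) :
    ∃ τ : Fin (finrank (IsLocalRing.ResidueField A)
        ((IsLocalRing.ResidueField A ⊗[R] B) ⧸ nilradical (IsLocalRing.ResidueField A ⊗[R] B))) →
          C',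
      ∀ v : Fin (finrank (IsLocalRing.ResidueField A)
        ((IsLocalRing.ResidueField A ⊗[R] B) ⧸ nilradical (IsLocalRing.ResidueField A ⊗[R] B))) →
          W,
        ∑ j, v j • τ j ∈ (Ideal.span {algebraMap W C' (sL a₀)}).radical → ∀ j, sL a₀ ∣ v j := by
  classical
  obtain ⟨Pt, hPinj, hPD⟩ := h.exists_points bb c' b r hr1 hr a₀ ha₀
  have hsirr : Irreducible (sL a₀) := h.irr a₀ ha₀
  have hsprime : Prime (sL a₀) := hsirr.prime
  have hgenD : ∀ d : 𝔻, gen (algebraMap 𝔻 𝒪 d) = algebraMap W C' (ιL d) := by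
    intro d
    have := h.gen_smul d 1
    rwa [Algebra.smul_def, mul_one, map_one, Algebra.smul_def, mul_one] at this
  have hPc : ∀ i (u : A), Pt i (algebraMap 𝔻 𝒪 (algebraMap A 𝔻 u)) = u := by
    intro i u
    rw [hPD, AlgHom.commutes]
    rfl
  -- separating elements
  have hsep : ∀ i i', i ≠ i' → ∃ w : 𝒪, Pt i w ≠ Pt i' w := by
    intro i i' hne
    by_contra hcon
    push Not at hcon
    exact hne (hPinj (RingHom.ext hcon))
  choose w hw using hsep
  let y : Fin _ → 𝒪 := fun i => ∏ i', (if hne : i = i' then (1 : 𝒪) else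
    (w i i' hne - algebraMap 𝔻 𝒪 (algebraMap A 𝔻 (Pt i' (w i i' hne)))))
  have hy0 : ∀ i i', i ≠ i' → Pt i' (y i) = 0 := by
    intro i i' hne
    rw [map_prod]
    refine Finset.prod_eq_zero (Finset.mem_univ i') ?_
    rw [dif_neg hne, map_sub, hPc, sub_self]
  have hy1 : ∀ i, Pt i (y i) ≠ 0 := by
    intro i
    rw [map_prod]
    refine Finset.prod_ne_zero_iff.mpr fun i' _ => ?_
    by_cases hne : i = i'
    · rw [dif_pos hne, map_one]
      exact one_ne_zero
    · rw [dif_neg hne, map_sub, hPc]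
      exact sub_ne_zero.mpr (hw i i' hne)
  refine ⟨fun i => gen (y i), fun v hv i₀ => ?_⟩
  set J : Ideal C' := (Ideal.span {algebraMap W C' (sL a₀)}).radical with hJ
  have hsJ : ∀ z : C', algebraMap W C' (sL a₀) * z ∈ J := fun z =>
    Ideal.le_radical (Ideal.mem_span_singleton.mpr (Dvd.intro _ rfl))
  choose u₁ u₂ hu₂ hdvd using fun j => h.ev_frac a₀ ha₀ (v j)
  choose e he using hdvd
  let U : Fin _ → A := fun j => ∏ j' ∈ Finset.univ.erase j, u₂ j'
  have hU0 : ∀ j, U j ≠ 0 := fun j => Finset.prod_ne_zero_iff.mpr fun j' _ => hu₂ j'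
  let Y : 𝒪 := ∑ j, algebraMap A 𝔻 (U j * u₁ j) • y j
  -- `gen Y` lies in the radical
  have hYJ : gen Y ∈ J := by
    have h1 : gen Y = ∑ j, (ιL (algebraMap A 𝔻 (U j)) *
        (ιL (algebraMap A 𝔻 (u₂ j)) * v j - sL a₀ * e j)) • gen (y j) := by
      rw [map_sum]
      refine Finset.sum_congr rfl fun j _ => ?_
      rw [h.gen_smul, ← he j, sub_sub_cancel, ← map_mul, ← map_mul]
    have h2 : gen Y = algebraMap W C' (ιL (algebraMap A 𝔻 (∏ j', u₂ j'))) *
        (∑ j, v j • gen (y j)) -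
        algebraMap W C' (sL a₀) *
          ∑ j, algebraMap W C' (ιL (algebraMap A 𝔻 (U j)) * e j) * gen (y j) := by
      rw [h1, Finset.mul_sum, Finset.mul_sum, ← Finset.sum_sub_distrib]
      refine Finset.sum_congr rfl fun j _ => ?_
      have h3 : (∏ j', u₂ j') = U j * u₂ j :=
        (Finset.prod_erase_mul Finset.univ u₂ (Finset.mem_univ j)).symm
      rw [h3, Algebra.smul_def, Algebra.smul_def]
      simp only [map_mul, map_sub]
      ring
    rw [h2]
    exact J.sub_mem (J.mul_mem_left _ hv) (hsJ _)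
  obtain ⟨m, hm⟩ := hYJ
  rw [Ideal.mem_span_singleton] at hm
  obtain ⟨z₁, hz₁⟩ := hm
  obtain ⟨u, hu, y', hy'⟩ := h.hint z₁
  obtain ⟨σ, hσ, hσ0⟩ := h.ev_gen a₀ ha₀
  have h4 : gen (algebraMap A 𝔻 u • Y ^ m) = gen (σ • y') := by
    rw [h.gen_smul, h.gen_smul, map_pow, hz₁, hσ, ← hy', Algebra.smul_def, Algebra.smul_def,
      Algebra.smul_def]
    ring
  have h5 := congrArg (Pt i₀) (h.gen_inj h4)
  rw [Algebra.smul_def, Algebra.smul_def, map_mul, map_mul, hPc, hPD, hσ0, zero_mul, map_pow] at h5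
  have h6 : Pt i₀ Y = 0 := by
    rcases mul_eq_zero.mp h5 with h7 | h7
    · exact absurd h7 hu
    · exact eq_zero_of_pow_eq_zero h7
  have h8 : Pt i₀ Y = U i₀ * u₁ i₀ * Pt i₀ (y i₀) := by
    show Pt i₀ (∑ j, algebraMap A 𝔻 (U j * u₁ j) • y j) = _
    rw [map_sum, Finset.sum_eq_single i₀]
    · rw [Algebra.smul_def, map_mul, hPc]
    · intro j _ hj
      rw [Algebra.smul_def, map_mul, hy0 j i₀ hj, mul_zero]
    · intro hn
      exact absurd (Finset.mem_univ i₀) hn
  rw [h8] at h6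
  have h9 : u₁ i₀ = 0 := by
    rcases mul_eq_zero.mp h6 with h10 | h10
    · rcases mul_eq_zero.mp h10 with h11 | h11
      · exact absurd h11 (hU0 i₀)
      · exact h11
    · exact absurd h10 (hy1 i₀)
  have h12 : sL a₀ ∣ ιL (algebraMap A 𝔻 (u₂ i₀)) * v i₀ := by
    have := he i₀
    rw [h9, map_zero, map_zero, sub_zero] at this
    exact ⟨_, this⟩
  rcases hsprime.dvd_or_dvd h12 with h13 | h13
  · exact absurd (isUnit_of_dvd_unit h13 (h.unit _ (hu₂ i₀))) hsirr.not_isUnit
  · exact h13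


/-- **Abstract specialisation theorem (C3).**  If all points of the class `P` except possibly
one (`a₀`) are unbranched, then the reduced order `B` agrees with `C` at the point `sb`. -/
theorem IsSpec.core [IsAlgClosed L] [IsAlgClosed (IsLocalRing.ResidueField A)]
    (h : IsSpec A ιL ιk gen red sL evA sb P)
    (bb : Basis ι R B) (c : Basis ι R C) (c' : Basis ι W C')
    (j : B →ₐ[R] C) (hj : Function.Injective j) (hc : Algebra.discr R c ≠ 0)
    (hbr : ∃ a₀ : A, ∀ a ∈ P, a ≠ a₀ →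
      ∀ z : C', algebraMap W C' (sL a) ∣ z ^ 2 → algebraMap W C' (sL a) ∣ z) :
    ¬ sb ∣ (LinearMap.toMatrix bb c j.toLinearMap).det := by
  classical
  obtain ⟨b, r, hb, hr1, hr⟩ := h.exists_lift bb
  obtain ⟨hT0, hTp⟩ := h.det_tMat c' b r hr1 hr
  obtain ⟨D, hDk, hDL⟩ := h.exists_discr bb c' b r hb hr1 hr hT0
  have hbb0 : Algebra.discr R bb ≠ 0 := by
    rw [DED6052.discr_eq_det_sq_mul bb c j hj]
    exact mul_ne_zero (pow_ne_zero 2 (DED6052.det_toMatrix_ne_zero bb c j.toLinearMap hj)) hc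
  have hfd : FiniteDimensional (IsLocalRing.ResidueField A) (IsLocalRing.ResidueField A ⊗[R] B) :=
    Module.Finite.of_basis (Algebra.TensorProduct.basis (IsLocalRing.ResidueField A) bb)
  have hZle : finrank (IsLocalRing.ResidueField A)
      ((IsLocalRing.ResidueField A ⊗[R] B) ⧸ nilradical (IsLocalRing.ResidueField A ⊗[R] B)) ≤
        Fintype.card ι := by
    rw [← finrank_eq_card_basis (Algebra.TensorProduct.basis (IsLocalRing.ResidueField A) bb),
      ← DED6052.finrank_quot_nilradical_add (κ := IsLocalRing.ResidueField A)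
        (F := IsLocalRing.ResidueField A ⊗[R] B)]
    exact Nat.le_add_right _ _
  refine DED6052.not_dvd_det_of_discr h.evk_surj sb h.evk_ker bb c j hj
    (Fintype.card ι - finrank (IsLocalRing.ResidueField A)
      ((IsLocalRing.ResidueField A ⊗[R] B) ⧸ nilradical (IsLocalRing.ResidueField A ⊗[R] B)))
    ?_ (by omega)
  intro hdvd
  rw [← hDk] at hdvd hbb0
  obtain ⟨m, hm1, hmP, hmdvd⟩ := h.mult D hbb0 _ hdvd
  obtain ⟨a₀, ha₀⟩ := hbr
  have hall : ∀ a ∈ m, a = a₀ := by
    intro a ham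
    by_contra hne
    have haP := hmP a ham
    have hprime : Prime (sL a) := (h.irr a haP).prime
    have h1 : sL a ∣ ιL D := (Multiset.dvd_prod (Multiset.mem_map_of_mem sL ham)).trans hmdvd
    rw [hDL] at h1
    rcases hprime.dvd_or_dvd h1 with h2 | h2
    · exact h.not_dvd_r r hr1 a haP (hprime.dvd_of_dvd_pow h2)
    · rcases hprime.dvd_or_dvd h2 with h3 | h3
      · exact hTp _ hprime (h.not_dvd_r r hr1 a haP) (hprime.dvd_of_dvd_pow h3)
      · exact not_dvd_discr_of_reduced c' (h.irr a haP) (h.char0 a haP) (ha₀ a haP hne) h3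
  have hmrep : m = Multiset.replicate (Multiset.card m) a₀ :=
    Multiset.eq_replicate.mpr ⟨rfl, hall⟩
  have hcardpos : 0 < Multiset.card m := by omega
  have ha₀P : a₀ ∈ P := by
    obtain ⟨a, ha⟩ := Multiset.card_pos_iff_exists_mem.mp hcardpos
    exact hall a ha ▸ hmP a ha
  have hprime : Prime (sL a₀) := (h.irr a₀ ha₀P).prime
  have hpow : sL a₀ ^ (Fintype.card ι - finrank (IsLocalRing.ResidueField A)
      ((IsLocalRing.ResidueField A ⊗[R] B) ⧸ nilradical (IsLocalRing.ResidueField A ⊗[R] B)) + 1) ∣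
        ιL D := by
    refine dvd_trans ?_ hmdvd
    rw [hmrep, Multiset.map_replicate, Multiset.prod_replicate]
    exact pow_dvd_pow _ hm1
  rw [hDL] at hpow
  have h1 := hprime.pow_dvd_of_dvd_mul_left _
    (fun hd => h.not_dvd_r r hr1 a₀ ha₀P (hprime.dvd_of_dvd_pow hd)) hpow
  have h2 := hprime.pow_dvd_of_dvd_mul_left _
    (fun hd => hTp _ hprime (h.not_dvd_r r hr1 a₀ ha₀P) (hprime.dvd_of_dvd_pow hd)) h1
  obtain ⟨τ, hτ⟩ := h.exists_indep bb c' b r hr1 hr a₀ ha₀P
  exact DISC7529.not_pow_dvd_discr_of_charZero c' (h.irr a₀ ha₀P) (h.char0 a₀ ha₀P) _ τ hτ h2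

end Core

end Fermat.Agent.S18.DISC8149
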