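import Mathlib

/-!
# S18 / DISC (helper8149): generic facts for the instantiation of the abstract core at `K[X]`

* `isAlgClosed_residueField` : the residue field of a valuation subring of an algebraically closed
  field is algebraically closed;
* `isIntegral_adjoin_iff` : integrality over `Algebra.adjoin K {x}` and over `K[X]` (`X ↦ x`);
* `exists_basis_integralClosure` : the integral closure of `K[X]` in a finite separable extension
  `F` of `K(x)` is integrally closed and has a `K[X]`-basis of cardinality `[F : K(x)]`, with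
  nonzero discriminant;
* `finrank_order` : an order has full rank;
* `exists_det_smul_eq` : `det (B → C) • C ⊆ B`.
-/

set_option autoImplicit false
set_option linter.unusedSectionVars false
set_option linter.style.haveILetI false

namespace Fermat.Agent.S18.DISC8149

open Module Polynomial IntermediateField

/-- The residue field of a valuation subring of an algebraically closed field is algebraically
closed. -/
theorem isAlgClosed_residueField {L : Type*} [Field L] [IsAlgClosed L] (A : ValuationSubring L) :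
    IsAlgClosed (IsLocalRing.ResidueField A) := by
  refine IsAlgClosed.of_exists_root _ fun p hpm hpirr => ?_
  have hlift : p ∈ Polynomial.lifts (IsLocalRing.residue A) :=
    (Polynomial.mem_lifts p).mpr (Polynomial.map_surjective _ IsLocalRing.residue_surjective p)
  obtain ⟨P, hPmap, hPdeg, hPm⟩ := Polynomial.lifts_and_degree_eq_and_monic hlift hpm
  have hdeg : (P.map (algebraMap A L)).degree ≠ 0 := by
    rw [Polynomial.degree_map_eq_of_injective (IsFractionRing.injective A L), hPdeg]
    exact fun h0 => hpirr.not_isUnit (Polynomial.isUnit_iff_degree_eq_zero.mpr h0)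
  obtain ⟨z, hz⟩ := IsAlgClosed.exists_root (P.map (algebraMap A L)) hdeg
  have hzint : IsIntegral A z := ⟨P, hPm, by rw [← Polynomial.eval_map]; exact hz⟩
  obtain ⟨z₀, rfl⟩ := IsIntegrallyClosed.isIntegral_iff.mp hzint
  refine ⟨IsLocalRing.residue A z₀, ?_⟩
  have h0 : P.eval z₀ = 0 := by
    apply IsFractionRing.injective A L
    rw [map_zero, ← Polynomial.eval₂_at_apply, ← Polynomial.eval_map]
    exact hz
  rw [← hPmap, Polynomial.eval_map, Polynomial.eval₂_at_apply, h0, map_zero]

section Adjoin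

variable {K F : Type*} [Field K] [Field F] [Algebra K F] (x : F) [Algebra K[X] F]

/-- Integrality over `K[x] ⊆ F` is integrality over `K[X]` acting through `X ↦ x`. -/
theorem isIntegral_adjoin_iff (halg : ∀ p : K[X], algebraMap K[X] F p = aeval x p) (z : F) :
    IsIntegral (Algebra.adjoin K {x}) z ↔ IsIntegral K[X] z := by
  have hmem : ∀ q : K[X], aeval x q ∈ Algebra.adjoin K {x} := fun q => by
    rw [Algebra.adjoin_singleton_eq_range_aeval]
    exact ⟨q, rfl⟩
  let f : K[X] →+* Algebra.adjoin K {x} :=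
    (aeval x : K[X] →ₐ[K] F).toRingHom.codRestrict _ (fun q => hmem q)
  have hf : Function.Surjective f := by
    rintro ⟨s, hs⟩
    rw [Algebra.adjoin_singleton_eq_range_aeval] at hs
    obtain ⟨q, rfl⟩ := hs
    exact ⟨q, rfl⟩
  have hcomp : (algebraMap (Algebra.adjoin K {x}) F).comp f = algebraMap K[X] F :=
    RingHom.ext fun q => (halg q).symm
  constructor
  · rintro ⟨p, hpm, hp⟩
    obtain ⟨q, hq, -, hqm⟩ := Polynomial.lifts_and_degree_eq_and_monic
      ((Polynomial.mem_lifts p).mpr (Polynomial.map_surjective f hf p)) hpm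
    refine ⟨q, hqm, ?_⟩
    rw [← hcomp, ← Polynomial.eval₂_map, hq]
    exact hp
  · rintro ⟨q, hqm, hq⟩
    refine ⟨q.map f, hqm.map f, ?_⟩
    rw [Polynomial.eval₂_map, hcomp]
    exact hq

/-- The integral closure of `K[X]` in a finite separable extension of `K(x)`. -/
theorem exists_basis_integralClosure (hx : Transcendental K x) [FiniteDimensional K⟮x⟯ F]
    [Algebra.IsSeparable K⟮x⟯ F] (halg : ∀ p : K[X], algebraMap K[X] F p = aeval x p) :
    IsIntegrallyClosed (integralClosure K[X] F) ∧
      ∃ c : Basis (Fin (finrank K⟮x⟯ F)) K[X] (integralClosure K[X] F),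
        Algebra.discr K[X] c ≠ 0 := by
  classical
  letI : Algebra K[X] K⟮x⟯ :=
    (aeval (⟨x, mem_adjoin_simple_self K x⟩ : K⟮x⟯) : K[X] →ₐ[K] K⟮x⟯).toRingHom.toAlgebra
  have hmap : ∀ p : K[X], ((algebraMap K[X] K⟮x⟯ p : K⟮x⟯) : F) = aeval x p := by
    intro p
    show ((aeval (⟨x, mem_adjoin_simple_self K x⟩ : K⟮x⟯) p : K⟮x⟯) : F) = aeval x p
    rw [← IntermediateField.coe_val, ← Polynomial.aeval_algHom_apply]
    rfl
  haveI : IsScalarTower K[X] K⟮x⟯ F :=
    IsScalarTower.of_algebraMap_eq fun p => by rw [halg, ← hmap]; rfl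
  have hinj : Function.Injective (algebraMap K[X] F) := by
    intro p q hpq
    rw [halg, halg] at hpq
    exact transcendental_iff_injective.mp hx hpq
  haveI : FaithfulSMul K[X] K⟮x⟯ := (faithfulSMul_iff_algebraMap_injective _ _).mpr (by
    intro p q hpq
    apply hinj
    rw [IsScalarTower.algebraMap_apply K[X] K⟮x⟯ F, IsScalarTower.algebraMap_apply K[X] K⟮x⟯ F,
      hpq])
  haveI : FaithfulSMul K[X] F := (faithfulSMul_iff_algebraMap_injective _ _).mpr hinj
  haveI : IsFractionRing K[X] K⟮x⟯ := IsFractionRing.of_field K[X] K⟮x⟯ (fun z => by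
    obtain ⟨r, s, hrs⟩ := (mem_adjoin_simple_iff K z.1).mp z.2
    refine ⟨r, s, Subtype.ext ?_⟩
    rw [hrs]
    simp [hmap])
  have hrank : finrank K[X] (integralClosure K[X] F) = finrank K⟮x⟯ F :=
    IsIntegralClosure.rank K[X] K⟮x⟯ F (integralClosure K[X] F)
  haveI : IsNoetherian K[X] (integralClosure K[X] F) :=
    IsIntegralClosure.isNoetherian K[X] K⟮x⟯ F _
  haveI : Module.Free K[X] (integralClosure K[X] F) :=
    IsIntegralClosure.module_free K[X] K⟮x⟯ F _
  let c := Module.finBasisOfFinrankEq K[X] (integralClosure K[X] F) hrank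
  refine ⟨integralClosure.isIntegrallyClosedOfFiniteExtension K⟮x⟯, c, ?_⟩
  haveI : IsLocalization (Algebra.algebraMapSubmonoid (integralClosure K[X] F)
      (nonZeroDivisors K[X])) F := IsIntegralClosure.isLocalization K[X] K⟮x⟯ F _
  have h1 := Algebra.discr_localizationLocalization K[X] (Rₘ := K⟮x⟯) (nonZeroDivisors K[X]) F c
  intro h0
  rw [h0, map_zero] at h1
  exact Algebra.discr_not_zero_of_basis K⟮x⟯ _ h1

end Adjoin


/-- An order (finite subalgebra with full fraction field) in a finite extension `E` of the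
fraction field `K₀` of a PID `R` is free of rank `[E : K₀]`. -/
theorem finrank_order {R : Type*} [CommRing R] [IsDomain R] [IsPrincipalIdealRing R]
    {K₀ : Type*} [Field K₀] [Algebra R K₀] [IsFractionRing R K₀]
    {E : Type*} [Field E] [Algebra K₀ E] [Algebra R E] [IsScalarTower R K₀ E]
    [FiniteDimensional K₀ E] (B : Subalgebra R E) [Module.Finite R B]
    (hfrac : ∀ f : E, ∃ β₁ β₂ : B, (β₂ : E) ≠ 0 ∧ f * β₂ = β₁) :
    Module.Free R B ∧ finrank R B = finrank K₀ E := by
  classical
  haveI : FaithfulSMul R E := (faithfulSMul_iff_algebraMap_injective R E).mpr (by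
    rw [IsScalarTower.algebraMap_eq R K₀ E]
    exact (algebraMap K₀ E).injective.comp (IsFractionRing.injective R K₀))
  haveI : Module.Free R B := Module.free_of_finite_type_torsion_free'
  refine ⟨inferInstance, ?_⟩
  let β := Module.Free.chooseBasis R B
  have hli : LinearIndependent K₀ (fun i => (β i : E)) := by
    rw [← LinearIndependent.iff_fractionRing R K₀]
    exact β.linearIndependent.map' B.val.toLinearMap
      (LinearMap.ker_eq_bot.mpr Subtype.val_injective)
  have hBsp : ∀ β₀ : B, (β₀ : E) ∈ Submodule.span K₀ (Set.range fun i => (β i : E)) := by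
    intro β₀
    have h1 : (β₀ : E) = ∑ i, β.repr β₀ i • (β i : E) := by
      conv_lhs => rw [← β.sum_repr β₀]
      rw [AddSubmonoidClass.coe_finsetSum]
      rfl
    rw [h1]
    refine Submodule.sum_mem _ fun i _ => ?_
    rw [← algebraMap_smul K₀ (β.repr β₀ i) (β i : E)]
    exact Submodule.smul_mem _ _ (Submodule.subset_span ⟨i, rfl⟩)
  have hsp : ⊤ ≤ Submodule.span K₀ (Set.range fun i => (β i : E)) := by
    intro f _
    obtain ⟨β₁, β₂, h2, h12⟩ := hfrac f
    -- the `K₀`-subalgebra generated by `B`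
    have hsub : ∀ z ∈ Algebra.adjoin K₀ (B : Set E),
        z ∈ Submodule.span K₀ (Set.range fun i => (β i : E)) := by
      intro z hz
      rw [← Subalgebra.mem_toSubmodule, Algebra.adjoin_eq_span] at hz
      have hcl : Submonoid.closure (B : Set E) = B.toSubmonoid :=
        Submonoid.closure_eq B.toSubmonoid
      rw [hcl] at hz
      refine Submodule.span_le.mpr ?_ hz
      intro b hb
      exact hBsp ⟨b, hb⟩
    apply hsub
    have h3 : (β₂ : E) ∈ Algebra.adjoin K₀ (B : Set E) := Algebra.subset_adjoin β₂.2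
    have h4 : (β₁ : E) ∈ Algebra.adjoin K₀ (B : Set E) := Algebra.subset_adjoin β₁.2
    have h5 : (β₂ : E)⁻¹ ∈ Algebra.adjoin K₀ (B : Set E) :=
      Subalgebra.inv_mem_of_algebraic (Algebra.adjoin K₀ (B : Set E)) (x := ⟨(β₂ : E), h3⟩)
        (Algebra.IsAlgebraic.isAlgebraic (R := K₀) (β₂ : E))
    have h6 : f = β₁ * (β₂ : E)⁻¹ := by
      rw [← h12, mul_assoc, mul_inv_cancel₀ h2, mul_one]
    rw [h6]
    exact Subalgebra.mul_mem _ h4 h5
  have h7 := finrank_eq_card_basis (Basis.mk hli hsp)
  rw [h7, finrank_eq_card_chooseBasisIndex]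

/-- `det (B → C) • C ⊆ B`. -/
theorem exists_det_smul_eq {R : Type*} [CommRing R] {B C : Type*} [AddCommGroup B] [Module R B]
    [AddCommGroup C] [Module R C] {ι : Type*} [Fintype ι] [DecidableEq ι]
    (bb : Basis ι R B) (c : Basis ι R C) (j : B →ₗ[R] C) (z : C) :
    ∃ β : B, j β = (LinearMap.toMatrix bb c j).det • z := by
  set M := LinearMap.toMatrix bb c j with hM
  have h1 : Matrix.toLin bb c M = j := Matrix.toLin_toMatrix bb c j
  refine ⟨Matrix.toLin c bb M.adjugate z, ?_⟩
  calc j (Matrix.toLin c bb M.adjugate z)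
      = Matrix.toLin bb c M (Matrix.toLin c bb M.adjugate z) := by rw [h1]
    _ = Matrix.toLin c c (M * M.adjugate) z := by
        rw [Matrix.toLin_mul c bb c]; rfl
    _ = M.det • z := by
        rw [Matrix.mul_adjugate, map_smul, Matrix.toLin_one]; rfl

section AdjoinOrder

variable {K F : Type*} [Field K] [Field F] [Algebra K F] (x : F) [Algebra K[X] F]

/-- An order of `F` over `K[X]` (acting through `X ↦ x`) has a basis of cardinality `[F : K(x)]`. -/
theorem exists_basis_order (hx : Transcendental K x) [FiniteDimensional K⟮x⟯ F]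
    (halg : ∀ p : K[X], algebraMap K[X] F p = aeval x p) (B : Subalgebra K[X] F)
    [Module.Finite K[X] B] (hfrac : ∀ f : F, ∃ β₁ β₂ : B, (β₂ : F) ≠ 0 ∧ f * β₂ = β₁) :
    Nonempty (Basis (Fin (finrank K⟮x⟯ F)) K[X] B) := by
  classical
  letI : Algebra K[X] K⟮x⟯ :=
    (aeval (⟨x, mem_adjoin_simple_self K x⟩ : K⟮x⟯) : K[X] →ₐ[K] K⟮x⟯).toRingHom.toAlgebra
  have hmap : ∀ p : K[X], ((algebraMap K[X] K⟮x⟯ p : K⟮x⟯) : F) = aeval x p := by
    intro p
    show ((aeval (⟨x, mem_adjoin_simple_self K x⟩ : K⟮x⟯) p : K⟮x⟯) : F) = aeval x p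
    rw [← IntermediateField.coe_val, ← Polynomial.aeval_algHom_apply]
    rfl
  haveI : IsScalarTower K[X] K⟮x⟯ F :=
    IsScalarTower.of_algebraMap_eq fun p => by rw [halg, ← hmap]; rfl
  have hinj : Function.Injective (algebraMap K[X] F) := by
    intro p q hpq
    rw [halg, halg] at hpq
    exact transcendental_iff_injective.mp hx hpq
  haveI : FaithfulSMul K[X] K⟮x⟯ := (faithfulSMul_iff_algebraMap_injective _ _).mpr (by
    intro p q hpq
    apply hinj
    rw [IsScalarTower.algebraMap_apply K[X] K⟮x⟯ F, IsScalarTower.algebraMap_apply K[X] K⟮x⟯ F,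
      hpq])
  haveI : IsFractionRing K[X] K⟮x⟯ := IsFractionRing.of_field K[X] K⟮x⟯ (fun z => by
    obtain ⟨r, s, hrs⟩ := (mem_adjoin_simple_iff K z.1).mp z.2
    refine ⟨r, s, Subtype.ext ?_⟩
    rw [hrs]
    simp [hmap])
  obtain ⟨hfree, hrank⟩ := finrank_order (R := K[X]) (K₀ := K⟮x⟯) B hfrac
  exact ⟨Module.finBasisOfFinrankEq K[X] B hrank⟩

end AdjoinOrder

end Fermat.Agent.S18.DISC8149
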