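import Fermat.Agent.S18.DISC8149.Core
import Fermat.Agent.S18.DISC8149.PolyBase
import Fermat.Agent.S18.DISC6322.RootsRed

/-!
# S18 / DISC (helper8149): `spec_poly` of `TInt.lean` v0 (origin/helper2926), exact statement

Instantiation of the abstract core `IsSpec.core` at `𝔻 = A[X]`, `W = L[X]`, `R = k[X]`.
The hypothesis `Unbranched L (gen ξ) a` of `TInt.lean` is written unfolded (definitionally equal).
-/

set_option autoImplicit false
set_option linter.unusedSectionVars false
set_option linter.style.haveILetI false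
set_option linter.unusedVariables false

namespace Fermat.Agent.S18.DISC8149

open Module Polynomial IntermediateField

section Spec

variable {L : Type*} [Field L] [IsAlgClosed L] [CharZero L] (A : ValuationSubring L)
variable {F : Type*} [Field F] [Algebra L F]
variable {E : Type*} [Field E] [Algebra (IsLocalRing.ResidueField A) E]
variable {𝒪 : Type*} [CommRing 𝒪]

/-- **(C3), base `A[x]`** — the statement `spec_poly` of `TInt.lean` v0. -/
theorem spec_poly
    (cst : A →+* 𝒪) (gen : 𝒪 →+* F) (red : 𝒪 →+* E)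
    (hgen : Function.Injective gen)
    (hgen_cst : ∀ a : A, gen (cst a) = algebraMap L F (a : L))
    (hred_cst : ∀ a : A, red (cst a) =
      algebraMap (IsLocalRing.ResidueField A) E (IsLocalRing.residue A a))
    (ξ : 𝒪)
    (hxL : Transcendental L (gen ξ))
    (hxk : Transcendental (IsLocalRing.ResidueField A) (red ξ))
    (hFfin : FiniteDimensional L⟮gen ξ⟯ F)
    (hEfin : FiniteDimensional (IsLocalRing.ResidueField A)⟮red ξ⟯ E)
    (hEsep : Algebra.IsSeparable (IsLocalRing.ResidueField A)⟮red ξ⟯ E)
    (hdeg : Module.finrank (IsLocalRing.ResidueField A)⟮red ξ⟯ E = Module.finrank L⟮gen ξ⟯ F)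
    (hker : ∀ y : 𝒪, red y = 0 →
      ∃ c : A, c ∈ IsLocalRing.maximalIdeal A ∧ ∃ y' : 𝒪, y = cst c * y')
    (hfg : ∃ s : Finset 𝒪, ∀ y : 𝒪, ∃ p : 𝒪 → A[X], y = ∑ e ∈ s, (p e).eval₂ cst ξ * e)
    (hint : ∀ f : F, IsIntegral (Algebra.adjoin L {gen ξ}) f →
      ∃ (c : L) (y : 𝒪), f = algebraMap L F c * gen y)
    (hfrac : ∀ f : E, ∃ y₁ y₂ : 𝒪, red y₂ ≠ 0 ∧ f * red y₂ = red y₁)
    (ab : IsLocalRing.ResidueField A)
    (hbranch : ∃ a₀ : A, ∀ a : A, IsLocalRing.residue A a = ab → a ≠ a₀ →
      ∀ z : F, IsIntegral (Algebra.adjoin L {gen ξ}) z →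
        IsIntegral (Algebra.adjoin L {gen ξ}) (z ^ 2 / (gen ξ - algebraMap L F (a : L))) →
        IsIntegral (Algebra.adjoin L {gen ξ}) (z / (gen ξ - algebraMap L F (a : L))))
    (f : E) (hf : IsIntegral (Algebra.adjoin (IsLocalRing.ResidueField A) {red ξ}) f) :
    ∃ (s : (IsLocalRing.ResidueField A)[X]) (y : 𝒪),
      s.eval ab ≠ 0 ∧ Polynomial.aeval (red ξ) s * f = red y := by
  classical
  haveI : IsAlgClosed (IsLocalRing.ResidueField A) := isAlgClosed_residueField A
  -- the algebra structures
  letI algD : Algebra A[X] 𝒪 := (Polynomial.eval₂RingHom cst ξ).toAlgebra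
  letI algW : Algebra L[X] F := (aeval (gen ξ) : L[X] →ₐ[L] F).toRingHom.toAlgebra
  letI algR : Algebra (IsLocalRing.ResidueField A)[X] E :=
    (aeval (red ξ) : (IsLocalRing.ResidueField A)[X] →ₐ[IsLocalRing.ResidueField A] E).toRingHom.toAlgebra
  letI algk : Algebra (IsLocalRing.ResidueField A)[X] (IsLocalRing.ResidueField A) :=
    (Polynomial.evalRingHom ab).toAlgebra
  have halgD : ∀ d : A[X], algebraMap A[X] 𝒪 d = d.eval₂ cst ξ := fun d => rfl
  have halgW : ∀ p : L[X], algebraMap L[X] F p = aeval (gen ξ) p := fun p => rfl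
  have halgR : ∀ p : (IsLocalRing.ResidueField A)[X],
      algebraMap (IsLocalRing.ResidueField A)[X] E p = aeval (red ξ) p := fun p => rfl
  have halgk : ∀ p : (IsLocalRing.ResidueField A)[X],
      algebraMap (IsLocalRing.ResidueField A)[X] (IsLocalRing.ResidueField A) p = p.eval ab :=
    fun p => rfl
  -- compatibility of `gen`, `red` with the base maps
  have hgenD : ∀ d : A[X], gen (d.eval₂ cst ξ) = aeval (gen ξ) (d.map A.subtype) := by
    intro d
    rw [Polynomial.hom_eval₂, Polynomial.aeval_def, Polynomial.eval₂_map]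
    congr 1
    exact RingHom.ext fun a => hgen_cst a
  have hredD : ∀ d : A[X], red (d.eval₂ cst ξ) =
      aeval (red ξ) (d.map (IsLocalRing.residue A)) := by
    intro d
    rw [Polynomial.hom_eval₂, Polynomial.aeval_def, Polynomial.eval₂_map]
    congr 1
    exact RingHom.ext fun a => hred_cst a
  -- finiteness of `𝒪` over `A[X]`
  obtain ⟨s, hs⟩ := hfg
  haveI hfinO : Module.Finite A[X] 𝒪 := ⟨⟨s, eq_top_iff.mpr fun y _ => by
    obtain ⟨p, hp⟩ := hs y
    rw [hp]
    refine Submodule.sum_mem _ fun e he => ?_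
    rw [← halgD, ← Algebra.smul_def]
    exact Submodule.smul_mem _ _ (Submodule.subset_span he)⟩⟩
  have hintO : ∀ y : 𝒪, IsIntegral A[X] y := fun y => IsIntegral.of_finite A[X] y
  -- the generic side
  have hgenint : ∀ y : 𝒪, IsIntegral L[X] (gen y) := by
    intro y
    refine IsIntegral.map_of_comp_eq (Polynomial.mapRingHom A.subtype) gen ?_ (hintO y)
    refine RingHom.ext fun d => ?_
    rw [RingHom.comp_apply, RingHom.comp_apply, halgW, halgD, hgenD]
    rfl
  have hredint : ∀ y : 𝒪, IsIntegral (IsLocalRing.ResidueField A)[X] (red y) := by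
    intro y
    refine IsIntegral.map_of_comp_eq (Polynomial.mapRingHom (IsLocalRing.residue A)) red ?_
      (hintO y)
    refine RingHom.ext fun d => ?_
    rw [RingHom.comp_apply, RingHom.comp_apply, halgR, halgD, hredD]
    rfl
  -- the orders
  let Bk : Subalgebra (IsLocalRing.ResidueField A)[X] E :=
    { red.rangeS with
      algebraMap_mem' := fun p => by
        obtain ⟨P, rfl⟩ := Polynomial.map_surjective (IsLocalRing.residue A)
          IsLocalRing.residue_surjective p
        exact ⟨P.eval₂ cst ξ, by rw [hredD]; rfl⟩ }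
  have hBk : ∀ e : E, e ∈ Bk ↔ ∃ y : 𝒪, red y = e := fun e => Iff.rfl
  let red' : 𝒪 →+* Bk := red.codRestrict Bk (fun y => ⟨y, rfl⟩)
  let gen' : 𝒪 →+* integralClosure L[X] F :=
    gen.codRestrict (integralClosure L[X] F) (fun y => hgenint y)
  have hred' : ∀ y : 𝒪, (red' y : E) = red y := fun y => rfl
  have hgen' : ∀ y : 𝒪, (gen' y : F) = gen y := fun y => rfl
  have hred'_surj : Function.Surjective red' := by
    rintro ⟨e, y, rfl⟩
    exact ⟨y, rfl⟩
  have hred'_smul : ∀ (d : A[X]) (y : 𝒪),
      red' (d • y) = Polynomial.mapRingHom (IsLocalRing.residue A) d • red' y := by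
    intro d y
    apply Subtype.ext
    rw [Algebra.smul_def, halgD, Algebra.smul_def]
    show red (d.eval₂ cst ξ * y) = algebraMap (IsLocalRing.ResidueField A)[X] E _ * red y
    rw [map_mul, hredD, halgR]
    rfl
  have hgen'_smul : ∀ (d : A[X]) (y : 𝒪),
      gen' (d • y) = Polynomial.mapRingHom A.subtype d • gen' y := by
    intro d y
    apply Subtype.ext
    rw [Algebra.smul_def, halgD, Algebra.smul_def]
    show gen (d.eval₂ cst ξ * y) = algebraMap L[X] F _ * gen y
    rw [map_mul, hgenD, halgW]
    rfl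
  haveI hfinB : Module.Finite (IsLocalRing.ResidueField A)[X] Bk :=
    ⟨⟨s.image red', eq_top_iff.mpr fun β _ => by
      obtain ⟨y, rfl⟩ := hred'_surj β
      obtain ⟨p, hp⟩ := hs y
      rw [hp, map_sum]
      refine Submodule.sum_mem _ fun e he => ?_
      rw [← halgD, ← Algebra.smul_def, hred'_smul]
      exact Submodule.smul_mem _ _ (Submodule.subset_span (by
        rw [Finset.coe_image]
        exact Set.mem_image_of_mem _ he))⟩⟩
  have hfracB : ∀ f : E, ∃ β₁ β₂ : Bk, (β₂ : E) ≠ 0 ∧ f * β₂ = β₁ := by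
    intro f
    obtain ⟨y₁, y₂, h2, h12⟩ := hfrac f
    exact ⟨red' y₁, red' y₂, h2, h12⟩
  -- separability on the generic side
  haveI : CharZero L⟮gen ξ⟯ := charZero_of_injective_algebraMap (algebraMap L L⟮gen ξ⟯).injective
  haveI : Algebra.IsSeparable L⟮gen ξ⟯ F := Algebra.IsAlgebraic.isSeparable_of_perfectField
  -- the bases
  obtain ⟨hicW, c', -⟩ := exists_basis_integralClosure (gen ξ) hxL halgW
  obtain ⟨-, c₀, hc₀⟩ := exists_basis_integralClosure (red ξ) hxk halgR
  obtain ⟨bb₀⟩ := exists_basis_order (red ξ) hxk halgR Bk hfracB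
  have hcex : ∀ m : ℕ, m = finrank (IsLocalRing.ResidueField A)⟮red ξ⟯ E →
      ∃ (c : Basis (Fin m) (IsLocalRing.ResidueField A)[X]
          (integralClosure (IsLocalRing.ResidueField A)[X] E))
        (bb : Basis (Fin m) (IsLocalRing.ResidueField A)[X] Bk),
        Algebra.discr (IsLocalRing.ResidueField A)[X] c ≠ 0 := by
    rintro m rfl
    exact ⟨c₀, bb₀, hc₀⟩
  obtain ⟨c, bb, hc⟩ := hcex _ hdeg.symm
  haveI := hicW
  -- the inclusion `B ⊆ C`
  have hle : Bk ≤ integralClosure (IsLocalRing.ResidueField A)[X] E := by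
    rintro e ⟨y, rfl⟩
    exact hredint y
  let j : Bk →ₐ[(IsLocalRing.ResidueField A)[X]]
      integralClosure (IsLocalRing.ResidueField A)[X] E := Subalgebra.inclusion hle
  have hj : Function.Injective j := Subalgebra.inclusion_injective hle
  have hx0 : ∀ a : L, gen ξ - algebraMap L F a ≠ 0 := by
    intro a h0
    apply hxL
    refine ⟨X - C a, Polynomial.X_sub_C_ne_zero a, ?_⟩
    rw [map_sub, aeval_X, aeval_C]
    exact h0
  have hres0 : ∀ a : A, IsLocalRing.residue A a = 0 ↔ ¬ IsUnit a := by
    intro a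
    rw [IsLocalRing.residue_eq_zero_iff, IsLocalRing.mem_maximalIdeal, mem_nonunits_iff]
  -- the abstract hypotheses
  have hspec : IsSpec A (Polynomial.mapRingHom A.subtype)
      (Polynomial.mapRingHom (IsLocalRing.residue A)) gen' red'
      (fun a : A => (X - C (a : L) : L[X])) (fun a : A => (Polynomial.aeval a : A[X] →ₐ[A] A))
      (X - C ab : (IsLocalRing.ResidueField A)[X]) {a : A | IsLocalRing.residue A a = ab} := by
    refine
      { ιL_inj := Polynomial.map_injective _ (fun a b h => Subtype.ext h)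
        ιk_surj := Polynomial.map_surjective _ IsLocalRing.residue_surjective
        gen_inj := fun y₁ y₂ h => hgen (congrArg Subtype.val h)
        gen_smul := hgen'_smul
        red_surj := hred'_surj
        red_smul := hred'_smul
        ker_red := ?_
        unit := ?_
        hint := ?_
        evk_surj := fun c => ⟨C c, by rw [halgk, eval_C]⟩
        evk_ker := fun ρ hρ => Polynomial.dvd_iff_isRoot.mpr (by rw [halgk] at hρ; exact hρ)
        irr := fun a _ => Polynomial.irreducible_X_sub_C _
        char0 := ?_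
        ev_dvd := ?_
        ev_res := ?_
        ev_frac := ?_
        ev_gen := ?_
        mult := ?_ }
    · -- ker_red
      intro y hy
      have hy0 : red y = 0 := congrArg Subtype.val hy
      obtain ⟨c₁, hc₁, y', rfl⟩ := hker y hy0
      have h1 : cst c₁ * y' = (C c₁ : A[X]) • y' := by
        rw [Algebra.smul_def, halgD, eval₂_C]
      rw [h1]
      refine Submodule.smul_mem_smul ?_ Submodule.mem_top
      rw [RingHom.mem_ker, Polynomial.coe_mapRingHom, Polynomial.map_C,
        (IsLocalRing.residue_eq_zero_iff c₁).mpr hc₁, map_zero]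
    · -- unit
      intro u hu
      rw [← Polynomial.C_eq_algebraMap, Polynomial.coe_mapRingHom, Polynomial.map_C]
      exact Polynomial.isUnit_C.mpr (IsUnit.mk0 _ (fun h0 => hu (Subtype.ext h0)))
    · -- hint
      intro z
      have hz : IsIntegral (Algebra.adjoin L {gen ξ}) (z : F) :=
        (isIntegral_adjoin_iff (gen ξ) halgW _).mpr z.2
      obtain ⟨c₁, y, hcy⟩ := hint _ hz
      have hsm : ∀ (u : A) (w : integralClosure L[X] F),
          ((Polynomial.mapRingHom A.subtype (algebraMap A A[X] u) • w :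
            integralClosure L[X] F) : F) = algebraMap L F (u : L) * (w : F) := by
        intro u w
        rw [← Polynomial.C_eq_algebraMap, Polynomial.coe_mapRingHom, Polynomial.map_C,
          Algebra.smul_def]
        show algebraMap L[X] F (C (A.subtype u)) * (w : F) = _
        rw [halgW, aeval_C]
        rfl
      by_cases hc₁ : c₁ ∈ A
      · refine ⟨1, one_ne_zero, cst ⟨c₁, hc₁⟩ * y, Subtype.ext ?_⟩
        rw [hsm, hgen', map_mul, hgen_cst, hcy]
        simp
      · have hc₁0 : c₁ ≠ 0 := by
          rintro rfl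
          exact hc₁ A.zero_mem
        have hc₁' : c₁⁻¹ ∈ A := (A.mem_or_inv_mem c₁).resolve_left hc₁
        refine ⟨⟨c₁⁻¹, hc₁'⟩, fun h0 => inv_ne_zero hc₁0 (congrArg Subtype.val h0), y,
          Subtype.ext ?_⟩
        rw [hsm, hgen', hcy, ← mul_assoc, ← map_mul, inv_mul_cancel₀ hc₁0, map_one, one_mul]
    · -- char0
      intro a _ m hm hdvd
      rw [← Polynomial.C_eq_natCast] at hdvd
      exact (Polynomial.irreducible_X_sub_C (a : L)).not_isUnit
        (isUnit_of_dvd_unit hdvd (Polynomial.isUnit_C.mpr (IsUnit.mk0 _ (Nat.cast_ne_zero.mpr hm))))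
    · -- ev_dvd
      intro a _ d
      rw [← Polynomial.C_eq_algebraMap, Polynomial.coe_mapRingHom, Polynomial.map_C]
      have h1 : A.subtype (Polynomial.aeval a d) = (d.map A.subtype).eval (a : L) := by
        rw [Polynomial.eval_map, Polynomial.coe_aeval_eq_eval, ← Polynomial.eval₂_at_apply]
        rfl
      rw [h1]
      exact Polynomial.X_sub_C_dvd_sub_C_eval
    · -- ev_res
      intro a ha d
      have ha' : IsLocalRing.residue A a = ab := ha
      rw [halgk, Polynomial.coe_mapRingHom, Polynomial.eval_map, ← ha',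
        Polynomial.eval₂_at_apply, Polynomial.coe_aeval_eq_eval]
    · -- ev_frac
      intro a _ w
      have hC : ∀ u : A, Polynomial.mapRingHom A.subtype (algebraMap A A[X] u) = C (u : L) := by
        intro u
        rw [← Polynomial.C_eq_algebraMap, Polynomial.coe_mapRingHom, Polynomial.map_C]
        rfl
      by_cases hv : w.eval (a : L) ∈ A
      · refine ⟨⟨_, hv⟩, 1, one_ne_zero, ?_⟩
        rw [hC, hC]
        have : (C ((1 : A) : L) * w - C (w.eval (a : L)) : L[X]) = w - C (w.eval (a : L)) := by
          simp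
        rw [this]
        exact Polynomial.X_sub_C_dvd_sub_C_eval
      · have hv0 : w.eval (a : L) ≠ 0 := by
          intro h0
          rw [h0] at hv
          exact hv A.zero_mem
        have hv' : (w.eval (a : L))⁻¹ ∈ A := (A.mem_or_inv_mem _).resolve_left hv
        refine ⟨1, ⟨_, hv'⟩, fun h0 => inv_ne_zero hv0 (congrArg Subtype.val h0), ?_⟩
        rw [hC, hC, Polynomial.dvd_iff_isRoot, Polynomial.IsRoot.def, eval_sub, eval_mul, eval_C,
          eval_C]
        show (w.eval (a : L))⁻¹ * w.eval (a : L) - ((1 : A) : L) = 0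
        rw [inv_mul_cancel₀ hv0]
        simp
    · -- ev_gen
      intro a _
      refine ⟨X - C a, ?_, ?_⟩
      · rw [Polynomial.coe_mapRingHom, Polynomial.map_sub, Polynomial.map_X, Polynomial.map_C]
        rfl
      · simp
    · -- mult
      intro D hD jj hdvd
      rw [Polynomial.coe_mapRingHom] at hD hdvd ⊢
      have hroots := DISC6322.roots_map_residue (L := L) (IsLocalRing.residue A) hres0 D hD
      have h1 : jj ≤ Multiset.count ab (D.map (IsLocalRing.residue A)).roots := by
        rw [Polynomial.count_roots]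
        exact (Polynomial.le_rootMultiplicity_iff hD).mpr hdvd
      rw [hroots, Multiset.count_map] at h1
      refine ⟨D.roots.filter (fun a => ab = IsLocalRing.residue A a), h1, ?_, ?_⟩
      · intro a ha
        exact ((Multiset.mem_filter.mp ha).2).symm
      · have h2 : ((D.roots.map fun a => X - C a).prod).map A.subtype ∣ D.map A.subtype :=
          Polynomial.map_dvd _ (Polynomial.prod_multiset_X_sub_C_dvd D)
        refine dvd_trans ?_ h2
        rw [Polynomial.map_multiset_prod, Multiset.map_map]
        have h3 : (D.roots.filter (fun a => ab = IsLocalRing.residue A a)).map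
            (fun a : A => (X - C (a : L) : L[X])) =
            (D.roots.filter (fun a => ab = IsLocalRing.residue A a)).map
              (Polynomial.map A.subtype ∘ fun a => X - C a) := by
          refine Multiset.map_congr rfl fun a _ => ?_
          rw [Function.comp_apply, Polynomial.map_sub, Polynomial.map_X, Polynomial.map_C]
          rfl
        rw [h3]
        exact Multiset.prod_dvd_prod_of_le (Multiset.map_le_map (Multiset.filter_le _ _))
  -- the branch hypothesis in divisibility form
  have hbr : ∃ a₀ : A, ∀ a ∈ {a : A | IsLocalRing.residue A a = ab}, a ≠ a₀ →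
      ∀ z : integralClosure L[X] F,
        algebraMap L[X] (integralClosure L[X] F) (X - C (a : L)) ∣ z ^ 2 →
          algebraMap L[X] (integralClosure L[X] F) (X - C (a : L)) ∣ z := by
    obtain ⟨a₀, ha₀⟩ := hbranch
    refine ⟨a₀, fun a ha hne z hz => ?_⟩
    obtain ⟨w, hw⟩ := hz
    have hxa : ((algebraMap L[X] (integralClosure L[X] F) (X - C (a : L)) :
        integralClosure L[X] F) : F) = gen ξ - algebraMap L F (a : L) := by
      show algebraMap L[X] F (X - C (a : L)) = _
      rw [halgW, map_sub, aeval_X, aeval_C]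
    have hw' : (z : F) ^ 2 = (gen ξ - algebraMap L F (a : L)) * (w : F) := by
      rw [← hxa]
      exact congrArg Subtype.val hw
    have h1 : IsIntegral (Algebra.adjoin L {gen ξ}) (z : F) :=
      (isIntegral_adjoin_iff (gen ξ) halgW _).mpr z.2
    have h2 : IsIntegral (Algebra.adjoin L {gen ξ})
        ((z : F) ^ 2 / (gen ξ - algebraMap L F (a : L))) := by
      rw [hw', mul_div_cancel_left₀ _ (hx0 _)]
      exact (isIntegral_adjoin_iff (gen ξ) halgW _).mpr w.2
    have h3 := (isIntegral_adjoin_iff (gen ξ) halgW _).mp (ha₀ a ha hne _ h1 h2)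
    refine ⟨⟨_, h3⟩, Subtype.ext ?_⟩
    rw [Subalgebra.coe_mul, hxa, mul_div_cancel₀ _ (hx0 _)]
  have hcore := hspec.core bb c c' j hj hc hbr
  refine ⟨(LinearMap.toMatrix bb c j.toLinearMap).det, ?_⟩
  have hfint : IsIntegral (IsLocalRing.ResidueField A)[X] f :=
    (isIntegral_adjoin_iff (red ξ) halgR _).mp hf
  obtain ⟨β, hβ⟩ := exists_det_smul_eq bb c j.toLinearMap
    (⟨f, hfint⟩ : integralClosure (IsLocalRing.ResidueField A)[X] E)
  obtain ⟨y, hy⟩ := (hBk _).mp β.2
  refine ⟨y, fun h0 => hcore (Polynomial.dvd_iff_isRoot.mpr h0), ?_⟩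
  rw [hy]
  have h4 := congrArg Subtype.val hβ
  rw [Algebra.smul_def] at h4
  exact h4.symm

end Spec

end Fermat.Agent.S18.DISC8149
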